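import Fermat.Agent.S15.M1.U.Mem
import Fermat.Agent.S15.Red.Conc

/-!
# S15 / M1 / U2: the divisor of the modular unit `uF p = Δ(q)/Δ(q^p)` : `(p - 1)((0) - (∞))`

* at `∞`: order of the `q`-expansion;
* away from the poles of `j`: `w = p¹²/u` and `1/w` are integral over `Kbar[j]` (`U` of S28 block B);
* at `0`: the degree of a principal divisor is `0`.
-/

set_option autoImplicit false
set_option linter.unusedSectionVars false

noncomputable section

namespace Fermat.Agent.S15.M1.U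

open AlgebraicCurve ModularCurve Polynomial Fermat.Agent.S28 Fermat.Agent.S24 Fermat.Agent.Lib.RR
  Fermat.Agent.GAL.RED Fermat.Agent.S19.Weil

variable (p : ℕ) [NeZero p]

theorem isMono_uSer : IsMono (uSer p) (1 - (p : ℤ)) 1 :=
  ((IsMono.DlL (Λ := Kbar)).mul ((IsMono.DlLinv (Λ := Kbar)).qExpand p)).congr (by ring) (by ring)

theorem order_of_isMono {x : LaurentSeries Kbar} {k : ℤ} {c : Kbar} (hx : IsMono x k c)
    (hc : c ≠ 0) : x.order = k := by
  have hk : x.coeff k ≠ 0 := by rw [hx.coeff_self]; exact hc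
  have hx0 : x ≠ 0 := by
    rintro rfl
    simp at hk
  apply le_antisymm (HahnSeries.order_le_of_coeff_ne_zero hk)
  by_contra hlt
  push Not at hlt
  exact HahnSeries.coeff_order_eq_zero.not.mpr hx0 (hx.coeff_of_lt hlt)

theorem ord_oo (hp : p.Prime) : (oo p).ord (uF p) = -((p : ℤ) - 1) := by
  rw [show oo p = S17.Unr.oo p from rfl, S17.Unr.oo_ord, coe_uF p hp,
    order_of_isMono (isMono_uSer p) one_ne_zero]
  ring

/-- `w = p¹² / u`. -/
def wF : FN p := (p : FN p) ^ 12 * (uF p)⁻¹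

theorem coe_wF (hp : p.Prime) : (wF p : LaurentSeries Kbar) =
    (p : LaurentSeries Kbar) ^ 12 * qExpand Kbar p (DlL Kbar) * DlLinv Kbar := by
  have h1 : (uSer p)⁻¹ = qExpand Kbar p (DlL Kbar) * DlLinv Kbar := by
    apply inv_eq_of_mul_eq_one_left
    have h2 : qExpand Kbar p (DlL Kbar) * qExpand Kbar p (DlLinv Kbar) = 1 := by
      rw [← map_mul, DlL_mul_DlLinv, map_one]
    calc qExpand Kbar p (DlL Kbar) * DlLinv Kbar * uSer p
        = (DlL Kbar * DlLinv Kbar) * (qExpand Kbar p (DlL Kbar) * qExpand Kbar p (DlLinv Kbar)) := by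
          rw [uSer]; ring
      _ = 1 := by rw [h2, DlL_mul_DlLinv, one_mul]
  show ((p : FN p) ^ 12 * (uF p)⁻¹ : FN p).1 = _
  have h3 : (((p : FN p) ^ 12 * (uF p)⁻¹ : FN p) : LaurentSeries Kbar) =
      (p : LaurentSeries Kbar) ^ 12 * ((uF p : FN p) : LaurentSeries Kbar)⁻¹ := by
    push_cast
    rfl
  rw [h3, coe_uF p hp, h1, mul_assoc]

theorem U_wF (hp : p.Prime) {Φ U G : ℤ[X][X]} {m : ℕ} {c : ℤ} (hB : BData p Φ U G m c) :
    (U.map (evY (jF p))).eval (wF p) = 0 := by
  apply Subtype.val_injective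
  have h := map_eval_evY (modularFunctionFieldBar p).val.toRingHom (jF p) (wF p) U
  have h0 := hB.2.2.2.2.2.1
  have h2 := map_eval_evY (coeffMap (Int.castRingHom Kbar)) (jqModC ℤ)
    ((p : LaurentSeries ℤ) ^ 12 * qExpand ℤ p (DlL ℤ) * DlLinv ℤ) U
  have h3 : (U.map (evY (jqModC ℤ))).eval
      ((p : LaurentSeries ℤ) ^ 12 * qExpand ℤ p (DlL ℤ) * DlLinv ℤ) = 0 := h0
  rw [h3, map_zero, coeffMap_jqModC, map_mul, map_mul, map_pow, map_natCast, coeffMap_qExpand,
    coeffMap_DlL, coeffMap_DlLinv] at h2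
  have h4 : (modularFunctionFieldBar p).val.toRingHom (jF p) = jqModC Kbar :=
    Fermat.Agent.GAL.Igusa.LevelDeg_coeffEmb_jq
  have h5 : (modularFunctionFieldBar p).val.toRingHom (wF p) = _ := coe_wF p hp
  rw [h4, h5, ← h2] at h
  exact h

theorem wF_ne_zero (hp : p.Prime) : wF p ≠ 0 :=
  mul_ne_zero (pow_ne_zero _ (Nat.cast_ne_zero.mpr hp.ne_zero)) (inv_ne_zero (uF_ne_zero p hp))

theorem ord_natCast (v : Place Kbar (FN p)) (n : ℕ) : v.ord (n : FN p) = 0 := by
  have := Fermat.Agent.GAL.RED.ord_algebraMap v (n : Kbar)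
  rwa [map_natCast] at this

theorem ord_wF (hp : p.Prime) (v : Place Kbar (FN p)) : v.ord (wF p) = - v.ord (uF p) := by
  rw [wF, v.ord_mul (pow_ne_zero _ (Nat.cast_ne_zero.mpr hp.ne_zero))
    (inv_ne_zero (uF_ne_zero p hp)), ord_pow, ord_natCast, v.ord_inv]
  ring

/-- no zero or pole where `j` is regular. -/
theorem ord_eq_zero_of_regular (hp : p.Prime) (v : Place Kbar (FN p))
    (hv : jF p ∈ v.toValuationSubring) : v.ord (uF p) = 0 := by
  obtain ⟨Φ, U, G, m, c, hB⟩ := Fermat.Agent.GAL.Igusa.hB p hp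
  have hU := U_wF p hp hB
  have hj : IsIntegral (Algebra.adjoin Kbar {jF p}) (jF p) := by
    have := isIntegral_algebraMap (R := Algebra.adjoin Kbar {jF p}) (A := FN p)
      (x := ⟨jF p, Algebra.subset_adjoin rfl⟩)
    exact this
  have hc0 : (c : FN p) ≠ 0 := by
    have hcc := hB.2.2.2.2.1
    intro h
    have h1 : c = 0 := by exact_mod_cast h
    rw [h1] at hcc
    have : (p : ℤ) ^ 24 ≠ 0 := pow_ne_zero _ (by exact_mod_cast hp.ne_zero)
    exact this (by rw [← hcc]; ring)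
  have h1 : IsIntegral (Algebra.adjoin Kbar {jF p}) (wF p) :=
    isIntegral_of_evY U hB.2.2.1 (jF p) (wF p) hj hU
  have hc' : IsIntegral (Algebra.adjoin Kbar {jF p}) ((c : FN p)⁻¹) := by
    have h3 : ((c : FN p)⁻¹) = algebraMap (Algebra.adjoin Kbar {jF p}) (FN p)
        (algebraMap Kbar _ ((c : Kbar)⁻¹)) := by
      rw [← IsScalarTower.algebraMap_apply, map_inv₀, map_intCast]
    rw [h3]
    exact isIntegral_algebraMap
  have h2 : IsIntegral (Algebra.adjoin Kbar {jF p}) (wF p)⁻¹ :=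
    isIntegral_inv_of_evY U hB.2.2.1 c hB.2.2.2.1 ((c : FN p)⁻¹) hc' (mul_inv_cancel₀ hc0)
      (jF p) (wF p) hj hU
  have m1 := Fermat.Agent.GAL.Igusa.mem_place_of_isIntegral v hv h1
  have m2 := Fermat.Agent.GAL.Igusa.mem_place_of_isIntegral v hv h2
  rw [mem_iff_ord] at m1 m2
  have m1' := m1.resolve_left (wF_ne_zero p hp)
  have m2' := m2.resolve_left (inv_ne_zero (wF_ne_zero p hp))
  rw [v.ord_inv] at m2'
  rw [ord_wF p hp] at m1' m2'
  omega

theorem ord_else (hp : p.Prime) (v : Place Kbar (FN p)) (h1 : v ≠ oo p) (h2 : v ≠ zz p) :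
    v.ord (uF p) = 0 := by
  apply ord_eq_zero_of_regular p hp v
  rw [mem_iff_ord]
  right
  by_contra h
  push Not at h
  rcases (Red.cuspFacts p hp).pole_j v h with h | h
  · exact h1 h
  · exact h2 h

theorem divOf_uF_aux (hp : p.Prime) : divOf (K := Kbar) (uF p) =
    Finsupp.single (zz p) ((zz p).ord (uF p)) + Finsupp.single (oo p) (-((p : ℤ) - 1)) := by
  have hne := (Red.cuspFacts p hp).ne
  ext v
  rw [divOf_apply, Finsupp.add_apply]
  by_cases h1 : v = oo p
  · subst h1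
    rw [Finsupp.single_eq_same, Finsupp.single_eq_of_ne (Ne.symm hne), ord_oo p hp, zero_add]
  by_cases h2 : v = zz p
  · subst h2
    rw [Finsupp.single_eq_same, Finsupp.single_eq_of_ne h1, add_zero]
  rw [Finsupp.single_eq_of_ne h1, Finsupp.single_eq_of_ne h2, ord_else p hp v h1 h2, add_zero]

theorem ord_zz (hp : p.Prime) : (zz p).ord (uF p) = (p : ℤ) - 1 := by
  have h := degree_divOf (K := Kbar) (uF p)
  rw [divOf_uF_aux p hp, map_add, Divisor.degree_single, Divisor.degree_single, deg_eq_one,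
    deg_eq_one] at h
  push_cast at h
  linarith

/-- **U2.** -/
theorem divOf_uF (hp : p.Prime) :
    divOf (K := Kbar) (uF p) = ((p : ℤ) - 1) • ptDiv p (zz p) (oo p) := by
  rw [divOf_uF_aux p hp, ord_zz p hp, ptDiv, smul_sub, Finsupp.smul_single, Finsupp.smul_single,
    Finsupp.single_neg, ← sub_eq_add_neg]
  simp

/-- the contract `CuspFacts` of `S15/M1/Contracts.lean`. -/
theorem cuspFacts (hp : p.Prime) : M1.CuspFacts p where
  ne := (Red.cuspFacts p hp).ne
  j_oo := (Red.cuspFacts p hp).oo_j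
  j_zz := (Red.cuspFacts p hp).zz_j
  j_else := fun v h1 h2 => by
    by_contra h
    push Not at h
    rcases (Red.cuspFacts p hp).pole_j v h with h | h
    · exact h1 h
    · exact h2 h
  jp_oo := (Red.cuspFacts p hp).oo_jp
  jp_zz := (Red.cuspFacts p hp).zz_jp
  jp_else := fun v h1 h2 => by
    by_contra h
    push Not at h
    rcases (Red.cuspFacts p hp).pole_jp v h with h | h
    · exact h1 h
    · exact h2 h
  u_ne := uF_ne_zero p hp
  u_oo := ord_oo p hp
  u_zz := ord_zz p hp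
  u_else := fun v h1 h2 => ord_else p hp v h1 h2

theorem cuspOut : M1.CuspOut := fun p _ hp => cuspFacts p hp

end Fermat.Agent.S15.M1.U
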