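import Fermat.Agent.S15.M1.U.Div
import Fermat.Agent.S15.Red.Top

/-!
# S15 / M1 / U3, U4, U5: Galois invariance, integrality, the test function `fT p = u / j^(p-1)`

`fT p` is a meter in the sense of `Red.IsMeter` for EVERY valuation ring `A` of `Kbar`:
integer `q`-expansion `1 + O(q)`, poles only at zeros of `j`, zero of order `p² - 1` at the cusp `0`.
-/

set_option autoImplicit false
set_option linter.unusedSectionVars false

noncomputable section

namespace Fermat.Agent.S15.M1.U

open AlgebraicCurve ModularCurve Fermat.Agent.S28 Fermat.Agent.S24 Fermat.Agent.Lib.RR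
  Fermat.Agent.GAL.RED Fermat.Agent.S19.Weil Fermat.Agent.GAL.Hecke

variable (p : ℕ) [NeZero p]

/-! ## U3: Galois invariance -/

theorem coeffMap_uSer (σ : Kbar →+* Kbar) : coeffMap σ (uSer p) = uSer p := by
  rw [uSer, map_mul, coeffMap_qExpand, coeffMap_DlL, coeffMap_DlLinv]

/-- **U3.** -/
theorem gal_smul_uF (hp : p.Prime) (σ : GQ) : gal p σ • uF p = uF p := by
  apply Subtype.ext
  unfold gal
  rw [coe_arithmeticGalois_smul, coe_uF p hp]
  exact coeffMap_uSer p _

/-! ## U4: integral models -/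

section Int

variable {Λ : Type*} [CommRing Λ]

theorem isMono_jq : IsMono (jqModC Λ) (-1) 1 := by
  refine ⟨jNum.map (Int.castRingHom Λ), ?_, rfl⟩
  rw [← PowerSeries.coeff_zero_eq_constantCoeff_apply, PowerSeries.coeff_map,
    PowerSeries.coeff_zero_eq_constantCoeff_apply, constantCoeff_jNum, map_one]

theorem exists_inv_of_isMono {x : LaurentSeries Λ} {k : ℤ} (hx : IsMono x k 1) :
    ∃ y : LaurentSeries Λ, IsMono y (-k) 1 ∧ x * y = 1 := by
  obtain ⟨f, hf, rfl⟩ := hx
  refine ⟨HahnSeries.single (-k) 1 * HahnSeries.ofPowerSeries ℤ Λ (PowerSeries.invOfUnit f 1),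
    ⟨_, by simp, rfl⟩, ?_⟩
  have h1 : f * PowerSeries.invOfUnit f 1 = 1 := PowerSeries.mul_invOfUnit f 1 (by simpa using hf)
  calc HahnSeries.single k 1 * HahnSeries.ofPowerSeries ℤ Λ f *
        (HahnSeries.single (-k) 1 * HahnSeries.ofPowerSeries ℤ Λ (PowerSeries.invOfUnit f 1))
      = (HahnSeries.single k (1 : Λ) * HahnSeries.single (-k) 1) *
          HahnSeries.ofPowerSeries ℤ Λ (f * PowerSeries.invOfUnit f 1) := by
        rw [map_mul]; ring
    _ = 1 := by
        rw [h1, HahnSeries.single_mul_single, add_neg_cancel, mul_one,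
          map_one (HahnSeries.ofPowerSeries ℤ Λ), mul_one]
        rfl

end Int

/-- the modular unit over any ring. -/
def uSerR (Λ : Type*) [CommRing Λ] : LaurentSeries Λ := DlL Λ * qExpand Λ p (DlLinv Λ)

theorem coeffMap_uSerR {R S : Type*} [CommRing R] [CommRing S] (f : R →+* S) :
    coeffMap f (uSerR p R) = uSerR p S := by
  rw [uSerR, uSerR, map_mul, coeffMap_qExpand, coeffMap_DlL, coeffMap_DlLinv]

theorem isMono_uSerR (Λ : Type*) [CommRing Λ] : IsMono (uSerR p Λ) (1 - (p : ℤ)) 1 :=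
  ((IsMono.DlL (Λ := Λ)).mul ((IsMono.DlLinv (Λ := Λ)).qExpand p)).congr (by ring) (by ring)

/-- **U4.** `u` has an `A`-integral `q`-expansion, with reduction the modular unit of the residue field. -/
theorem uF_incl (hp : p.Prime) (A : ValuationSubring Kbar) :
    (uF p : LaurentSeries Kbar) = incl A (uSerR p ↥A) ∧
      red A (uSerR p ↥A) = uSerR p (IsLocalRing.ResidueField ↥A) := by
  refine ⟨?_, coeffMap_uSerR p _⟩
  rw [coe_uF p hp]
  exact (coeffMap_uSerR p A.subtype).symm

/-- the same for `1/u`. -/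
theorem uF_inv_incl (hp : p.Prime) (A : ValuationSubring Kbar) :
    (((uF p)⁻¹ : FN p) : LaurentSeries Kbar) = incl A (qExpand ↥A p (DlL ↥A) * DlLinv ↥A) ∧
      red A (qExpand ↥A p (DlL ↥A) * DlLinv ↥A) =
        qExpand (IsLocalRing.ResidueField ↥A) p (DlL (IsLocalRing.ResidueField ↥A)) *
          DlLinv (IsLocalRing.ResidueField ↥A) := by
  constructor
  · have h1 : (((uF p)⁻¹ : FN p) : LaurentSeries Kbar) = ((uF p : FN p) : LaurentSeries Kbar)⁻¹ := rfl
    rw [h1, coe_uF p hp]
    apply inv_eq_of_mul_eq_one_left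
    have h2 : qExpand Kbar p (DlL Kbar) * qExpand Kbar p (DlLinv Kbar) = 1 := by
      rw [← map_mul, DlL_mul_DlLinv, map_one]
    have h3 : incl A (qExpand ↥A p (DlL ↥A) * DlLinv ↥A) =
        qExpand Kbar p (DlL Kbar) * DlLinv Kbar := by
      show coeffMap A.subtype _ = _
      rw [map_mul, coeffMap_qExpand, coeffMap_DlL, coeffMap_DlLinv]
    rw [h3]
    calc qExpand Kbar p (DlL Kbar) * DlLinv Kbar * uSer p
        = (DlL Kbar * DlLinv Kbar) * (qExpand Kbar p (DlL Kbar) * qExpand Kbar p (DlLinv Kbar)) := by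
          rw [uSer]; ring
      _ = 1 := by rw [h2, DlL_mul_DlLinv, one_mul]
  · show coeffMap _ _ = _
    rw [map_mul, coeffMap_qExpand, coeffMap_DlL, coeffMap_DlLinv]

/-! ## U5: the test function -/

/-- the test function `u / j^(p-1)`. -/
def fT : FN p := uF p / jF p ^ (p - 1)

theorem jF_ne_zero : jF p ≠ 0 := by
  intro h
  have h1 : ((jF p : FN p) : LaurentSeries Kbar) = jqModC Kbar :=
    Fermat.Agent.GAL.Igusa.LevelDeg_coeffEmb_jq
  rw [h] at h1
  exact jqModC_ne_zero_of_nontrivial (R := Kbar) h1.symm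

theorem fT_ne_zero (hp : p.Prime) : fT p ≠ 0 :=
  div_ne_zero (uF_ne_zero p hp) (pow_ne_zero _ (jF_ne_zero p))

theorem gal_smul_fT (hp : p.Prime) (σ : GQ) : gal p σ • fT p = fT p := by
  rw [fT, div_eq_mul_inv, smul_mul', smul_inv₀', smul_pow', gal_smul_uF p hp, Red.gal_smul_jF]

theorem ord_fT (hp : p.Prime) (v : Place Kbar (FN p)) :
    v.ord (fT p) = v.ord (uF p) - ((p : ℤ) - 1) * v.ord (jF p) := by
  rw [fT, ord_div v (uF_ne_zero p hp) (pow_ne_zero _ (jF_ne_zero p)), ord_pow,
    Nat.cast_sub hp.one_le]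
  simp

/-- integral model of `fT`. -/
theorem exists_fT_incl (hp : p.Prime) (A : ValuationSubring Kbar) :
    ∃ z : LaurentSeries ↥A, (fT p : LaurentSeries Kbar) = incl A z ∧ IsMono z 0 1 := by
  obtain ⟨y, hy, hxy⟩ := exists_inv_of_isMono (isMono_jq (Λ := ↥A))
  refine ⟨uSerR p ↥A * y ^ (p - 1), ?_, ?_⟩
  · have h1 : ((fT p : FN p) : LaurentSeries Kbar) =
        ((uF p : FN p) : LaurentSeries Kbar) / ((jF p : FN p) : LaurentSeries Kbar) ^ (p - 1) := rfl
    have h2 : ((jF p : FN p) : LaurentSeries Kbar) = jqModC Kbar :=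
      Fermat.Agent.GAL.Igusa.LevelDeg_coeffEmb_jq
    have h3 : jqModC Kbar * incl A y = 1 := by
      have := congrArg (incl A) hxy
      rw [map_mul, map_one] at this
      rw [← this]
      congr 1
      exact (coeffMap_jqModC A.subtype).symm
    have h4 : incl A y = (jqModC Kbar)⁻¹ := eq_inv_of_mul_eq_one_right h3
    rw [h1, h2, (uF_incl p hp A).1, map_mul, map_pow, h4, inv_pow, div_eq_mul_inv]
  · refine ((isMono_uSerR p ↥A).mul (hy.pow (p - 1))).congr ?_ (by simp)
    rw [Nat.cast_sub hp.one_le]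
    push_cast
    ring

theorem isMono_incl {A : ValuationSubring Kbar} {z : LaurentSeries ↥A} {k : ℤ}
    (hz : IsMono z k 1) : IsMono (incl A z) k 1 := by
  obtain ⟨f, hf, rfl⟩ := hz
  refine ⟨f.map A.subtype, ?_, ?_⟩
  · rw [← PowerSeries.coeff_zero_eq_constantCoeff_apply, PowerSeries.coeff_map,
      PowerSeries.coeff_zero_eq_constantCoeff_apply, hf, map_one]
  · rw [map_mul]
    congr 1
    · show coeffMap A.subtype _ = _
      rw [coeffMap_single, map_one]
    · ext n
      show A.subtype _ = _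
      rcases le_or_gt 0 n with hn | hn
      · lift n to ℕ using hn
        rw [HahnSeries.ofPowerSeries_apply_coeff, HahnSeries.ofPowerSeries_apply_coeff,
          PowerSeries.coeff_map]
      · rw [ofPowerSeries_coeff_of_neg _ hn, ofPowerSeries_coeff_of_neg _ hn, map_zero]

theorem ev_oo_fT (hp : p.Prime) : ev (oo p) (fT p) = 1 := by
  obtain ⟨z, hz, hm⟩ := exists_fT_incl p hp ⊤
  have hm' := isMono_incl hm
  rw [← hz] at hm'
  rw [Red.ev_oo_eq_coeff p (by rw [order_of_isMono hm' one_ne_zero]), hm'.coeff_self]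

/-- **U5.** `fT p` is a meter at every `A`. -/
theorem isMeter_fT (hp : p.Prime) (A : ValuationSubring Kbar) : Red.IsMeter A p (fT p) where
  int := by
    obtain ⟨z, hz, -⟩ := exists_fT_incl p hp A
    exact ⟨z, hz⟩
  pol := by
    intro Q hQ
    have hC := Red.cuspFacts p hp
    have hp1 : (1 : ℤ) < p := by exact_mod_cast hp.one_lt
    rw [ord_fT p hp] at hQ
    have h1 : Q ≠ oo p := by
      rintro rfl
      rw [ord_oo p hp, hC.oo_j] at hQ
      linarith
    have h2 : Q ≠ zz p := by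
      rintro rfl
      rw [ord_zz p hp, hC.zz_j] at hQ
      nlinarith
    rw [ord_else p hp Q h1 h2] at hQ
    have h3 : 0 < Q.ord (jF p) := by
      by_contra h
      push Not at h
      nlinarith
    exact ⟨(mem_iff_ord Q _).mpr (Or.inr h3.le), by
      rw [ev_eq_zero_of_ord_pos Q h3]; exact zero_mem _⟩
  zz := by
    have hC := Red.cuspFacts p hp
    have hp1 : (1 : ℤ) < p := by exact_mod_cast hp.one_lt
    rw [ord_fT p hp, ord_zz p hp, hC.zz_j]
    nlinarith
  oo := by rw [ev_oo_fT p hp, map_one]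

/-- the value of the test function at a point `(j, u) = (a, c)`, `a ≠ 0`. -/
theorem ev_fT {x : Place Kbar (FN p)} {a c : Kbar} (hx : IsPtU p x a c) (ha : a ≠ 0) :
    ev x (fT p) = c / a ^ (p - 1) := by
  have hj : jF p ∈ x.toValuationSubring ∧ ev x (jF p) = a := by
    have h0 : jF p - algebraMap Kbar (FN p) a ∈ x.toValuationSubring :=
      (mem_iff_ord x _).mpr (Or.inr hx.ha.le)
    have h1 : jF p ∈ x.toValuationSubring := by
      have := add_mem h0 (Ev_algebraMap_mem x a)
      rwa [sub_add_cancel] at this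
    exact ⟨h1, (ev_eq_iff x h1 a).mpr (Or.inr hx.ha)⟩
  have hu : uF p ∈ x.toValuationSubring ∧ ev x (uF p) = c := by
    have h0 : uF p - algebraMap Kbar (FN p) c ∈ x.toValuationSubring :=
      (mem_iff_ord x _).mpr (Or.inr hx.hc.le)
    have h1 : uF p ∈ x.toValuationSubring := by
      have := add_mem h0 (Ev_algebraMap_mem x c)
      rwa [sub_add_cancel] at this
    exact ⟨h1, (ev_eq_iff x h1 c).mpr (Or.inr hx.hc)⟩
  have hjinv : (jF p ^ (p - 1))⁻¹ ∈ x.toValuationSubring := by
    rw [mem_iff_ord]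
    right
    rw [x.ord_inv, ord_pow]
    have h0 : x.ord (jF p) = 0 := by
      by_contra h
      have h1 : 0 < x.ord (jF p) := by
        have := ((mem_iff_ord x _).mp hj.1).resolve_left (jF_ne_zero p)
        omega
      exact ha (by rw [← hj.2, ev_eq_zero_of_ord_pos x h1])
    rw [h0]
    simp
  rw [fT, div_eq_mul_inv, ev_mul x hu.1 hjinv, ev_inv, ev_pow, hu.2, hj.2, div_eq_mul_inv]

end Fermat.Agent.S15.M1.U
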