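import Fermat.Agent.S15.M1.U.Mem

/-!
# S15 / M1 / U1': `UMem` at all levels (`Δ(q)/Δ(q^{ab}) = Δ(q)/Δ(q^a) · (Δ(q)/Δ(q^b))(q^a)`)
-/

set_option autoImplicit false
set_option linter.unusedSectionVars false

noncomputable section

namespace Fermat.Agent.S15.M1.U

open ModularCurve Fermat.Agent.S28 Fermat.Agent.S24

theorem uSer_one : uSer 1 = 1 := by
  rw [uSer, qExpand_one_apply, DlL_mul_DlLinv]

theorem uSer_mul (a b : ℕ) [NeZero a] [NeZero b] [NeZero (a * b)] :
    uSer (a * b) = uSer a * qExpand Kbar a (uSer b) := by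
  have h2 : qExpand Kbar a (DlLinv Kbar) * qExpand Kbar a (DlL Kbar) = 1 := by
    rw [← map_mul, mul_comm, DlL_mul_DlLinv, map_one]
  rw [uSer, uSer, uSer, map_mul, qExpand_qExpand]
  calc DlL Kbar * qExpand Kbar (a * b) (DlLinv Kbar)
      = DlL Kbar * (qExpand Kbar a (DlLinv Kbar) * qExpand Kbar a (DlL Kbar)) *
          qExpand Kbar (a * b) (DlLinv Kbar) := by rw [h2, mul_one]
    _ = _ := by ring

theorem uSer_mem_mul (a b : ℕ) [NeZero a] [NeZero b] [NeZero (a * b)]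
    (ha : uSer a ∈ modularFunctionFieldBar a) (hb : uSer b ∈ modularFunctionFieldBar b) :
    uSer (a * b) ∈ modularFunctionFieldBar (a * b) := by
  rw [uSer_mul]
  refine mul_mem ?_ ?_
  · exact (heckeAlphaBar Kbar a b ⟨uSer a, ha⟩).2
  · have h := (heckeBetaBar Kbar b a ⟨uSer b, hb⟩).2
    rw [coe_heckeBetaBar] at h
    rw [mul_comm a b]
    exact h

theorem uMem_aux (N : ℕ) : ∀ hN : N ≠ 0, @uSer N ⟨hN⟩ ∈ modularFunctionFieldBar N := by
  induction N using Nat.recOnMul with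
  | zero => intro h; exact absurd rfl h
  | one => intro h; rw [uSer_one]; exact one_mem _
  | prime p hp => intro h; exact @uSer_mem p ⟨h⟩ hp
  | mul a b ha hb =>
    intro h
    have ha0 : a ≠ 0 := left_ne_zero_of_mul h
    have hb0 : b ≠ 0 := right_ne_zero_of_mul h
    exact @uSer_mem_mul a b ⟨ha0⟩ ⟨hb0⟩ ⟨h⟩ (ha ha0) (hb hb0)

/-- **CONTRACT U1** of `S15/M1/Contracts.lean`. -/
theorem uMem : UMem := fun N hN => uMem_aux N hN.out

end Fermat.Agent.S15.M1.U
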