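import Fermat.Agent.S15.M1.Contracts
import Fermat.Agent.S28.A
import Fermat.Agent.S28.B
import Fermat.Agent.S36R.Unit.Psi
import Fermat.Agent.GAL.Igusa.LevelDeg

/-!
# S15 / M1 / U1: the modular unit `Δ(q)/Δ(q^p)` lies in `FN p` (`p` prime)

S28 block B (Lagrange interpolation `G_m = ∑_s u_s^m ∏_{s' ≠ s} (X - ρ_{s'})`, coefficients in `ℚ[j(q^p)]` for
`m ≥ p + 1`) gives `u^m ∈ Kbar(j(q), j(q^p))` for `m = p + 1` and `m = p + 2`.
-/

set_option autoImplicit false
set_option linter.unusedSectionVars false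

noncomputable section

namespace Fermat.Agent.S15.M1.U

open ModularCurve Polynomial Fermat.Agent.S28 Fermat.Agent.S24 Fermat.Agent.S36R.Unit

variable (p : ℕ) [NeZero p]

theorem jq_mem : jqModC Kbar ∈ modularFunctionFieldBar p := by
  have h := (jF p).2
  rwa [show ((jF p : FN p) : LaurentSeries Kbar) = coeffEmb Kbar jq from rfl,
    Fermat.Agent.GAL.Igusa.LevelDeg_coeffEmb_jq] at h

theorem jBase_mem : jBase p Kbar ∈ modularFunctionFieldBar p := by
  have h := (FNAdjoin.jd p p dvd_rfl).2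
  rwa [FNAdjoin.coe_jd', Fermat.Agent.GAL.Igusa.LevelDeg_coeffEmb_jq] at h

theorem subalgJ_le {x : LaurentSeries Kbar} (hx : x ∈ subalgJ p Kbar) :
    x ∈ modularFunctionFieldBar p := by
  obtain ⟨g, rfl⟩ := hx
  show aeval (jBase p Kbar) g ∈ modularFunctionFieldBar p
  induction g using Polynomial.induction_on with
  | C a =>
    rw [aeval_C, eq_ratCast]
    exact SubfieldClass.ratCast_mem _ a
  | add f g hf hg => rw [map_add]; exact add_mem hf hg
  | monomial n a h =>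
    rw [pow_succ, ← mul_assoc, map_mul, aeval_X]
    exact mul_mem h (jBase_mem p)

theorem eval_mem {P : (LaurentSeries Kbar)[X]} (hP : ∀ i, P.coeff i ∈ subalgJ p Kbar)
    {x : LaurentSeries Kbar} (hx : x ∈ modularFunctionFieldBar p) :
    P.eval x ∈ modularFunctionFieldBar p := by
  rw [eval_eq_sum_range]
  exact sum_mem fun i _ => mul_mem (subalgJ_le p (hP i)) (pow_mem hx i)

theorem derivative_eval_mem {P : (LaurentSeries Kbar)[X]} (hP : ∀ i, P.coeff i ∈ subalgJ p Kbar)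
    {x : LaurentSeries Kbar} (hx : x ∈ modularFunctionFieldBar p) :
    P.derivative.eval x ∈ modularFunctionFieldBar p := by
  refine eval_mem p (fun i => ?_) hx
  rw [coeff_derivative]
  exact (subalgJ p Kbar).mul_mem (hP _)
    ((subalgJ p Kbar).add_mem (natCast_mem _ _) (subalgJ p Kbar).one_mem)

theorem exists_prim : ∃ ζ : Kbarˣ, IsPrimitiveRoot ζ p := by
  obtain ⟨ζ, hζ⟩ := HasEnoughRootsOfUnity.exists_primitiveRoot Kbar p
  exact ⟨hζ.isUnit (NeZero.ne p) |>.unit, IsPrimitiveRoot.coe_units_iff.mp (by simpa using hζ)⟩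

theorem twist_pow_zero (ζ : Kbarˣ) (x : LaurentSeries Kbar) : twist (ζ ^ 0) x = x := by
  ext n
  simp

theorem uSer_ne_zero : uSer p ≠ 0 := by
  have h1 : qExpand Kbar p (DlL Kbar) * qExpand Kbar p (DlLinv Kbar) = 1 := by
    rw [← map_mul, DlL_mul_DlLinv, map_one]
  exact mul_ne_zero (left_ne_zero_of_mul_eq_one (DlL_mul_DlLinv (Λ := Kbar)))
    (right_ne_zero_of_mul_eq_one h1)

/-- `u^m ∈ FN p` for `m ≥ p + 1`. -/
theorem uSer_pow_mem (hp : p.Prime) (m : ℕ) (hm : p + 1 ≤ m) :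
    uSer p ^ m ∈ modularFunctionFieldBar p := by
  obtain ⟨ζ, hζ⟩ := exists_prim p
  obtain ⟨Φ, U, G, m₀, c, hB⟩ := Fermat.Agent.GAL.Igusa.hB p hp
  have hsum := sum_zpow_of_isPrimitiveRoot p hp ζ hζ
  have hP : ∀ n m, ∑ s, numFam p ζ s ^ n * unitFam p ζ s ^ m ∈ subalgJ p Kbar := fun n m => by
    obtain ⟨g, hg⟩ := powerSum_mem p ζ statementA hp hsum n m
    rw [hg]
    exact evBase_mem_subalgJ p Kbar g
  have hfac : Φ.map (evBase p Kbar) = PhiB p ζ := by
    rw [PhiB_eq]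
    exact (hB.2.2.2.2.2.2 Kbar ζ hζ).1
  have hΦB : ∀ i, (PhiB p ζ).coeff i ∈ subalgJ p Kbar := fun i => by
    rw [← hfac, coeff_map]
    exact evBase_mem_subalgJ p Kbar _
  have hGB : ∀ i, (GB p ζ m).coeff i ∈ subalgJ p Kbar :=
    coeff_interp_mem (subalgJ p Kbar) (numFam p ζ) (unitFam p ζ) (rootFam p ζ)
      (rootFam_mul_unitFam p ζ) hP hΦB m (by simpa using hm)
  have hev := eval_interp (fun s => unitFam p ζ s ^ m) (rootFam p ζ) (some ⟨0, hp.pos⟩)
  have hroot : rootFam p ζ (some ⟨0, hp.pos⟩) = jqModC Kbar := twist_pow_zero ζ _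
  have hunit : unitFam p ζ (some ⟨0, hp.pos⟩) = uSer p := by
    show twist (ζ ^ 0) (DlL Kbar) * qExpand Kbar p (DlLinv Kbar) = _
    rw [twist_pow_zero]
    rfl
  rw [hroot] at hev
  simp only [hunit] at hev
  have hD : (PhiB p ζ).derivative.eval (jqModC Kbar) ≠ 0 := by
    have hsep := separable_base (K := Kbar) hB hp (Nat.cast_ne_zero.mpr hp.ne_zero)
    rw [← Fermat.Agent.S36R.Unit.evBase_eq, hfac] at hsep
    have hr : (PhiB p ζ).eval (jqModC Kbar) = 0 := by
      rw [PhiB, eval_prod]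
      exact Finset.prod_eq_zero (Finset.mem_univ (some ⟨0, hp.pos⟩)) (by rw [hroot]; simp)
    have h1 := hsep.eval₂_derivative_ne_zero (RingHom.id _) (x := jqModC Kbar)
      (by rwa [eval₂_id])
    rwa [eval₂_id] at h1
  have h1 : uSer p ^ m = (GB p ζ m).eval (jqModC Kbar) /
      (PhiB p ζ).derivative.eval (jqModC Kbar) := by
    rw [eq_div_iff hD]
    exact hev.symm
  rw [h1]
  exact div_mem (eval_mem p hGB (jq_mem p)) (derivative_eval_mem p hΦB (jq_mem p))

/-- **U1.** -/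
theorem uSer_mem (hp : p.Prime) : uSer p ∈ modularFunctionFieldBar p := by
  have h1 := uSer_pow_mem p hp (p + 1) le_rfl
  have h2 := uSer_pow_mem p hp (p + 2) (by omega)
  have h3 : uSer p = uSer p ^ (p + 2) / uSer p ^ (p + 1) := by
    rw [eq_div_iff (pow_ne_zero _ (uSer_ne_zero p))]
    ring
  rw [h3]
  exact div_mem h2 h1

theorem coe_uF (hp : p.Prime) : (uF p : LaurentSeries Kbar) = uSer p := by
  rw [uF, dif_pos (uSer_mem p hp)]

theorem uF_ne_zero (hp : p.Prime) : uF p ≠ 0 := by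
  intro h
  have h1 := coe_uF p hp
  rw [h] at h1
  exact uSer_ne_zero p h1.symm

end Fermat.Agent.S15.M1.U
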